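import Fermat.Agent.RT.CurveResidual
import Fermat.Agent.LocalDef.Connected

/-!
# The image of inertia at a prime of good reduction, modulo that prime

At a good prime `p ≠ 2` the image of inertia in `GL₂(𝔽_p)` contains a transvection, or it is
commutative and contains an element whose projective order is divisible by `p - 1` (ordinary
reduction) or by `p + 1` (supersingular reduction).
-/

set_option autoImplicit false
set_option linter.style.haveILetI false

noncomputable section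

open Matrix WeierstrassCurve FA.EC FA.Frob FA.RT FA.LocalDef
open FA.Local

local notation "Qb" => AlgebraicClosure ℚ
local notation "GQ" => AlgebraicClosure ℚ ≃ₐ[ℚ] AlgebraicClosure ℚ
local notation "M2" => Matrix (Fin 2) (Fin 2)

namespace FA.SerreLarge

variable {p : ℕ} [hp : Fact p.Prime] {A : ValuationSubring Qb} {r : GQ →* M2 (ZMod p)}

/-- **The ordinary case**: a transvection, or a commutative image with projective order a multiple
of `p - 1`, provided the determinant takes a generator as a value. -/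
theorem inertia_image_ord (hord : IsOrdType A r) {σ₀ : GQ} (hσ₀ : σ₀ ∈ A.inertiaSubgroupIn ℚ)
    {g : (ZMod p)ˣ} (hg : orderOf g = p - 1) (hdet : (r σ₀).det = (g : ZMod p)) :
    (∃ σ ∈ A.inertiaSubgroupIn ℚ, (r σ - 1) * (r σ - 1) = 0 ∧ r σ ≠ 1) ∨
      ((∀ σ ∈ A.inertiaSubgroupIn ℚ, ∀ τ ∈ A.inertiaSubgroupIn ℚ, r σ * r τ = r τ * r σ) ∧
        ∀ (k : ℕ) (c : ZMod p), r σ₀ ^ k = c • 1 → (p - 1) ∣ k) := by
  classical
  obtain ⟨l, hl, -, hI⟩ := hord
  -- on the line inertia acts through the determinant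
  have hline : ∀ σ ∈ A.inertiaSubgroupIn ℚ, r σ *ᵥ l = (r σ).det • l := fun σ hσ => by
    obtain ⟨s₀, h0⟩ := hI σ hσ (Pi.single 0 1)
    obtain ⟨s₁, h1⟩ := hI σ hσ (Pi.single 1 1)
    have a00 : r σ 0 0 = 1 + s₀ * l 0 := by simpa [sub_eq_iff_eq_add'] using congrFun h0 0
    have a10 : r σ 1 0 = s₀ * l 1 := by simpa using congrFun h0 1
    have a01 : r σ 0 1 = s₁ * l 0 := by simpa using congrFun h1 0
    have a11 : r σ 1 1 = 1 + s₁ * l 1 := by simpa [sub_eq_iff_eq_add'] using congrFun h1 1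
    funext i
    fin_cases i <;> simp [mulVec, dotProduct, Fin.sum_univ_two, det_fin_two, a00, a10, a01, a11] <;>
      ring
  have hsq : ∀ σ ∈ A.inertiaSubgroupIn ℚ, (r σ).det = 1 → (r σ - 1) * (r σ - 1) = 0 :=
    fun σ hσ h => Matrix.ext_of_mulVec_single fun i => by
      obtain ⟨s, hs⟩ := hI σ hσ (Pi.single i 1)
      rw [← mulVec_mulVec, sub_mulVec _ _ (Pi.single i 1), one_mulVec, hs, mulVec_smul, sub_mulVec,
        one_mulVec, hline σ hσ, h, one_smul, sub_self, smul_zero, zero_mulVec]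
  by_cases hcomm : ∀ σ ∈ A.inertiaSubgroupIn ℚ, ∀ τ ∈ A.inertiaSubgroupIn ℚ,
      r σ * r τ = r τ * r σ
  · refine Or.inr ⟨hcomm, fun k c hk => ?_⟩
    have hpow : ∀ n : ℕ, r σ₀ ^ n *ᵥ l = ((g : ZMod p) ^ n) • l ∧
        ∀ w, ∃ s : ZMod p, r σ₀ ^ n *ᵥ w - w = s • l := by
      intro n
      induction n with
      | zero => exact ⟨by simp, fun w => ⟨0, by simp⟩⟩
      | succ n ih =>
        refine ⟨?_, fun w => ?_⟩
        · rw [pow_succ, ← mulVec_mulVec, hline σ₀ hσ₀, hdet, mulVec_smul, ih.1, smul_smul,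
            ← pow_succ']
        · obtain ⟨s, hs⟩ := hI σ₀ hσ₀ w
          obtain ⟨s', hs'⟩ := ih.2 w
          refine ⟨s * (g : ZMod p) ^ n + s', ?_⟩
          rw [pow_succ, ← mulVec_mulVec, sub_eq_iff_eq_add.mp hs, mulVec_add, mulVec_smul, ih.1,
            smul_smul, add_smul, add_sub_assoc, hs']
    have hck : c = (g : ZMod p) ^ k := by
      have h := (hpow k).1
      rw [hk, smul_mulVec, one_mulVec] at h
      exact smul_left_injective (ZMod p) hl h
    have hc1 : c = 1 := by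
      by_contra hne
      obtain ⟨s₀, h0⟩ := (hpow k).2 (Pi.single 0 1)
      obtain ⟨s₁, h1⟩ := (hpow k).2 (Pi.single 1 1)
      rw [hk, smul_mulVec, one_mulVec] at h0 h1
      have e00 : c - 1 = s₀ * l 0 := by simpa using congrFun h0 0
      have e10 : s₀ * l 1 = 0 := by simpa using (congrFun h0 1).symm
      have e11 : c - 1 = s₁ * l 1 := by simpa using congrFun h1 1
      rcases mul_eq_zero.mp e10 with h | h
      · exact hne (sub_eq_zero.mp (by rw [e00, h, zero_mul]))
      · exact hne (sub_eq_zero.mp (by rw [e11, h, mul_zero]))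
    rw [← hg, orderOf_dvd_iff_pow_eq_one, Units.ext_iff, Units.val_pow_eq_pow_val, Units.val_one,
      ← hck, hc1]
  · push Not at hcomm
    obtain ⟨σ, hσ, τ, hτ, hne⟩ := hcomm
    set x := σ * τ * σ⁻¹ * τ⁻¹ with hx
    have hxI : x ∈ A.inertiaSubgroupIn ℚ :=
      mul_mem (mul_mem (mul_mem hσ hτ) (inv_mem hσ)) (inv_mem hτ)
    refine Or.inl ⟨x, hxI, hsq x hxI ?_, fun h => hne ?_⟩
    · let f : GQ →* ZMod p := Matrix.detMonoidHom.comp r
      show f x = 1
      rw [hx, map_mul, map_mul, map_mul, mul_right_comm (f σ), mul_assoc, ← map_mul f σ,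
        ← map_mul f τ, mul_inv_cancel, mul_inv_cancel, map_one, one_mul]
    · calc r σ * r τ = r (x * (τ * σ)) := by rw [← map_mul, hx]; group
        _ = r τ * r σ := by rw [map_mul, h, one_mul, map_mul]

/-- **The supersingular case**: a commutative image with projective order a multiple of `p + 1`. -/
theorem inertia_image_ss (hA : A.LiesOverPrime p) (hss : IsSSType (p := p) A r) :
    (∀ σ ∈ A.inertiaSubgroupIn ℚ, ∀ τ ∈ A.inertiaSubgroupIn ℚ, r σ * r τ = r τ * r σ) ∧
      ∃ σ ∈ A.inertiaSubgroupIn ℚ, ∀ (k : ℕ) (c : ZMod p), r σ ^ k = c • 1 → (p + 1) ∣ k := by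
  classical
  obtain ⟨Λ, hN, -, -, g₀, hg₀, hgen, hord, t, d, ht, hd, heq⟩ := hss
  have hpow : ∀ σ ∈ A.inertiaSubgroupIn ℚ, ∃ j : ℕ, r σ = r g₀ ^ j := fun σ hσ => by
    obtain ⟨j, hj⟩ := hgen σ hσ
    refine ⟨j, ?_⟩
    conv_lhs => rw [show σ = g₀ ^ j * ((g₀ ^ j)⁻¹ * σ) by group]
    rw [map_mul, ((hN _).mp hj).2, mul_one, map_pow]
  refine ⟨fun σ hσ τ hτ => ?_, g₀, hg₀, fun k c hk => ?_⟩
  · obtain ⟨i, hi⟩ := hpow σ hσ
    obtain ⟨j, hj⟩ := hpow τ hτ
    rw [hi, hj, ← pow_add, ← pow_add, add_comm]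
  have := res_charP hp.out hA
  let f : ZMod p →+* FA.LocalDef.Res A := ZMod.castHom (dvd_refl p) (FA.LocalDef.Res A)
  set ν := Λ.chi0 g₀
  have hp2 := hp.out.two_le
  have hlt : p - 1 < p ^ 2 - 1 := by
    have : p * 2 ≤ p ^ 2 := by rw [pow_two]; exact Nat.mul_le_mul_left p hp2
    omega
  have hν0 : ν ≠ 0 := fun h => by
    rw [h, orderOf_zero] at hord
    omega
  have hνν : ν * ν = f (t : ZMod p) * ν - f (d : ZMod p) := by
    rw [map_natCast, map_natCast]
    linear_combination heq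
  obtain ⟨a, b, hM, hν⟩ : ∃ a b : ZMod p, r g₀ ^ k = a • r g₀ + b • 1 ∧
      ν ^ k = f a * ν + f b := by
    clear hk
    induction k with
    | zero => exact ⟨0, 1, by simp, by simp⟩
    | succ k ih =>
      obtain ⟨a, b, hM, hν⟩ := ih
      refine ⟨a * t + b, -(a * d), ?_, ?_⟩
      · rw [pow_succ, hM, add_mul, smul_mul_assoc, smul_mul_assoc, one_mul, mul_self_two, ht, hd]
        module
      · rw [pow_succ, hν, add_mul, mul_assoc, hνν, map_add, map_mul, map_neg, map_mul]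
        ring
  by_cases ha : a = 0
  · rw [ha, map_zero, zero_mul, zero_add] at hν
    have hb : b ≠ 0 := fun h => pow_ne_zero k hν0 (by rw [hν, h, map_zero])
    have h1 : ν ^ (k * (p - 1)) = 1 := by
      rw [pow_mul, hν, ← map_pow, ZMod.pow_card_sub_one_eq_one hb, map_one]
    have h2 := orderOf_dvd_of_pow_eq_one h1
    rw [hord, show p ^ 2 - 1 = (p + 1) * (p - 1) by rw [← Nat.sq_sub_sq, one_pow]] at h2
    exact Nat.dvd_of_mul_dvd_mul_right (by omega) h2
  · exfalso
    obtain ⟨e, hMe⟩ : ∃ e : ZMod p, r g₀ = e • 1 := by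
      have : a • r g₀ = (c - b) • (1 : M2 (ZMod p)) := by
        rw [sub_smul, ← hk, hM, add_sub_cancel_right]
      exact ⟨a⁻¹ * (c - b), by
        rw [← smul_smul, ← this, smul_smul, inv_mul_cancel₀ ha, one_smul]⟩
    have hνe : ν = f e := by
      have h : (ν - f e) ^ 2 = 0 := by
        have et : (t : ZMod p) = e + e := by rw [← ht, hMe]; simp [mul_two]
        have ed : (d : ZMod p) = e * e := by rw [← hd, hMe]; simp [pow_two]
        rw [et, ed, map_add, map_mul] at hνν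
        linear_combination hνν
      exact sub_eq_zero.mp (pow_eq_zero_iff two_ne_zero |>.mp h)
    have he : e ≠ 0 := fun h => hν0 (by rw [hνe, h, map_zero])
    have h1 := orderOf_dvd_of_pow_eq_one
      (show ν ^ (p - 1) = 1 by rw [hνe, ← map_pow, ZMod.pow_card_sub_one_eq_one he, map_one])
    rw [hord] at h1
    exact absurd (Nat.le_of_dvd (by omega) h1) (not_le.mpr hlt)

/-- **Inertia at a good prime `p`, modulo `p`**: a transvection, or a commutative image with an
element whose powers are scalar only at multiples of `p - 1`, or only at multiples of `p + 1`. -/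
theorem curveRep_inertia_at_p (W : WeierstrassCurve ℤ) [(ratCurve W).IsElliptic] (hp2 : p ≠ 2)
    (hgood : W.IsGoodPrimeFor p) (hA : A.LiesOverPrime p) :
    (∃ σ ∈ A.inertiaSubgroupIn ℚ,
        (curveRep p W σ - 1) * (curveRep p W σ - 1) = 0 ∧ curveRep p W σ ≠ 1) ∨
      ((∀ σ ∈ A.inertiaSubgroupIn ℚ, ∀ τ ∈ A.inertiaSubgroupIn ℚ,
          curveRep p W σ * curveRep p W τ = curveRep p W τ * curveRep p W σ) ∧
        ∃ σ ∈ A.inertiaSubgroupIn ℚ,
          (∀ (k : ℕ) (c : ZMod p), curveRep p W σ ^ k = c • 1 → (p - 1) ∣ k) ∨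
          (∀ (k : ℕ) (c : ZMod p), curveRep p W σ ^ k = c • 1 → (p + 1) ∣ k)) := by
  rcases flat_residual_type hA hp2 (detOmega_curveRep W A) (isFlatRes_curveRep W hA hgood) with
    hord | hss
  · obtain ⟨g, hg⟩ := IsCyclic.exists_generator (α := (ZMod p)ˣ)
    have hgo : orderOf g = p - 1 := by
      rw [orderOf_eq_card_of_forall_mem_zpowers hg, Nat.card_eq_fintype_card, ZMod.card_units]
    obtain ⟨ζ, hζ⟩ := HasEnoughRootsOfUnity.exists_primitiveRoot Qb p
    have hm : ¬ p ∣ (g : ZMod p).val := fun h => g.ne_zero (by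
      rw [← ZMod.natCast_zmod_val (g : ZMod p), ZMod.natCast_eq_zero_iff]; exact h)
    obtain ⟨σ₀, hσ₀, hσζ⟩ := exists_inertia_zeta hp.out hA hζ hm
    have hdet : (curveRep p W σ₀).det = (g : ZMod p) := by
      rw [det_curveRep W σ₀ (g : ZMod p).val fun μ hμ => ?_, ZMod.natCast_zmod_val]
      obtain ⟨i, -, rfl⟩ := hζ.eq_pow_of_pow_eq_one hμ
      rw [map_pow, hσζ, ← pow_mul, ← pow_mul, mul_comm]
    exact (inertia_image_ord hord hσ₀ hgo hdet).imp id
      fun h => ⟨h.1, σ₀, hσ₀, Or.inl h.2⟩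
  · obtain ⟨hc, σ, hσ, h⟩ := inertia_image_ss hA hss
    exact Or.inr ⟨hc, σ, hσ, Or.inr h⟩

/-- For `p ≥ 11`: a transvection, or a commutative image with an element of projective order at
least `6`. -/
theorem inertia_type {p : ℕ} [Fact p.Prime] {W : WeierstrassCurve ℤ} [(ratCurve W).IsElliptic]
    (h11 : 11 ≤ p) (hgood : W.IsGoodPrimeFor p) {A : ValuationSubring Qb}
    (hA : A.LiesOverPrime p) :
    (∃ σ ∈ A.inertiaSubgroupIn ℚ, curveRep p W σ ≠ 1 ∧
      (curveRep p W σ - 1) * (curveRep p W σ - 1) = 0) ∨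
    ((∀ σ ∈ A.inertiaSubgroupIn ℚ, ∀ τ ∈ A.inertiaSubgroupIn ℚ,
        Commute (curveRep p W σ) (curveRep p W τ)) ∧
      ∃ σ ∈ A.inertiaSubgroupIn ℚ, ∀ n : ℕ, 0 < n → n < 6 → ∀ c : ZMod p,
        curveRep p W σ ^ n ≠ c • 1) := by
  rcases curveRep_inertia_at_p W (by omega) hgood hA with ⟨σ, hσ, h, h1⟩ | ⟨hc, σ, hσ, h⟩
  · exact Or.inl ⟨σ, hσ, h1, h⟩
  · refine Or.inr ⟨hc, σ, hσ, fun n h0 h6 c hn => ?_⟩
    rcases h with h | h <;>
    · have := Nat.le_of_dvd h0 (h n c hn)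
      omega

end FA.SerreLarge

end
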