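import Mathlib.LinearAlgebra.Matrix.Trace
import Mathlib.LinearAlgebra.Matrix.Determinant.Basic
import Mathlib.LinearAlgebra.Matrix.NonsingularInverse
import Mathlib.GroupTheory.Index
import Mathlib.GroupTheory.Perm.Cycle.Type
import Mathlib.GroupTheory.Subgroup.Centralizer
import Mathlib.LinearAlgebra.Matrix.CharP
import Mathlib.Tactic

/-!
# Groups of `2 × 2` matrices of order prime to the characteristic

In such a group an element which is not scalar has a commutative centraliser and is conjugate
within it to at most one other element, the other root of its characteristic polynomial.  The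
elements which are not scalar thus fall into classes of size `|H| (1 - z / c) / e`, with `z`
scalars, `c` the order of the centraliser and `e ≤ 2`.  If some element has projective order at
least `6` this class equation leaves only one possibility: its centraliser has index at most `2`
and the trace vanishes outside it.
-/

set_option autoImplicit false
set_option linter.unusedSectionVars false
set_option linter.style.haveILetI false

noncomputable section

open Matrix Finset

namespace FA.SerreLarge

variable {k : Type*} [Field k]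

/-- A scalar matrix. -/
def IsScalarMat (M : Matrix (Fin 2) (Fin 2) k) : Prop := M 0 1 = 0 ∧ M 1 0 = 0 ∧ M 0 0 = M 1 1

theorem IsScalarMat.comm {M : Matrix (Fin 2) (Fin 2) k} (h : IsScalarMat M)
    (A : Matrix (Fin 2) (Fin 2) k) : A * M = M * A := by
  obtain ⟨h01, h10, h11⟩ := h
  ext i j
  fin_cases i <;> fin_cases j <;>
    simp [Matrix.mul_apply, Fin.sum_univ_two, h01, h10, ← h11] <;> ring

/-- What commutes with a matrix which is not scalar is a combination of it and the identity. -/
theorem exists_eq_add_smul {G A : Matrix (Fin 2) (Fin 2) k} (hG : ¬ IsScalarMat G)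
    (h : A * G = G * A) : ∃ u v : k, A = u • 1 + v • G := by
  have e00 := congrFun (congrFun h 0) 0
  have e01 := congrFun (congrFun h 0) 1
  have e10 := congrFun (congrFun h 1) 0
  simp [Matrix.mul_apply, Fin.sum_univ_two] at e00 e01 e10
  rcases eq_or_ne (G 0 1) 0 with g01 | g01
  · rcases eq_or_ne (G 1 0) 0 with g10 | g10
    · have hd : G 0 0 - G 1 1 ≠ 0 := fun e => hG ⟨g01, g10, sub_eq_zero.mp e⟩
      have a01 : A 0 1 = 0 := (mul_eq_zero.mp (show A 0 1 * (G 0 0 - G 1 1) = 0 by
        rw [g01] at e01; linear_combination -e01)).resolve_right hd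
      have a10 : A 1 0 = 0 := (mul_eq_zero.mp (show A 1 0 * (G 0 0 - G 1 1) = 0 by
        rw [g10] at e10; linear_combination e10)).resolve_right hd
      refine ⟨A 0 0 - (A 0 0 - A 1 1) / (G 0 0 - G 1 1) * G 0 0,
        (A 0 0 - A 1 1) / (G 0 0 - G 1 1), ?_⟩
      ext i j
      fin_cases i <;> fin_cases j <;> simp [g01, g10, a01, a10]
      field_simp
      ring
    · refine ⟨A 0 0 - A 1 0 / G 1 0 * G 0 0, A 1 0 / G 1 0, ?_⟩
      ext i j
      fin_cases i <;> fin_cases j <;> simp <;> field_simp
      · linear_combination e00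
      · linear_combination e10
  · refine ⟨A 0 0 - A 0 1 / G 0 1 * G 0 0, A 0 1 / G 0 1, ?_⟩
    ext i j
    fin_cases i <;> fin_cases j <;> simp <;> field_simp
    · linear_combination -e00
    · linear_combination -e01

/-- The centraliser of a matrix which is not scalar is commutative. -/
theorem comm_of_comm {G A B : Matrix (Fin 2) (Fin 2) k} (hG : ¬ IsScalarMat G)
    (hA : A * G = G * A) (hB : B * G = G * B) : A * B = B * A := by
  obtain ⟨u, v, rfl⟩ := exists_eq_add_smul hG hA
  rw [add_mul, mul_add, smul_mul_assoc, smul_mul_assoc, mul_smul_comm, mul_smul_comm, one_mul,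
    mul_one, hB]

/-- A combination of the identity and `G` with the trace and the determinant of `G` is `G` or its
conjugate root. -/
theorem eq_or_eq_trace_sub {G : Matrix (Fin 2) (Fin 2) k} (h2 : (2 : k) ≠ 0)
    (hdisc : G.trace ^ 2 ≠ 4 * G.det) {u v : k} (ht : (u • 1 + v • G).trace = G.trace)
    (hd : (u • 1 + v • G).det = G.det) :
    u • 1 + v • G = G ∨ u • 1 + v • G = G.trace • 1 - G := by
  simp [Matrix.trace_fin_two, Matrix.det_fin_two] at ht hd hdisc
  have hv : (1 - v ^ 2) * ((G 0 0 + G 1 1) ^ 2 - 4 * (G 0 0 * G 1 1 - G 0 1 * G 1 0)) = 0 := by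
    linear_combination 4 * hd - (2 * u + v * (G 0 0 + G 1 1) + (G 0 0 + G 1 1)) * ht
  rcases mul_eq_zero.mp hv with hv | hv
  · rcases sq_eq_one_iff.mp (sub_eq_zero.mp hv).symm with rfl | rfl
    · have hu : u = 0 := (mul_eq_zero.mp (show 2 * u = 0 by linear_combination ht)).resolve_left h2
      exact Or.inl (by simp [hu])
    · have hu : u = G.trace := by
        refine mul_left_cancel₀ h2 ?_
        rw [Matrix.trace_fin_two]
        linear_combination ht
      exact Or.inr (by rw [hu, neg_one_smul, sub_eq_add_neg])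
  · exact absurd (sub_eq_zero.mp hv) hdisc

variable {H : Type*} [Group H] [Finite H] {r : H →* Matrix (Fin 2) (Fin 2) k}

theorem det_ne_zero (r : H →* Matrix (Fin 2) (Fin 2) k) (g : H) : (r g).det ≠ 0 :=
  ((Matrix.isUnit_iff_isUnit_det _).mp ((Group.isUnit g).map r)).ne_zero

/-- An element of order prime to the characteristic which is not scalar has two distinct
eigenvalues. -/
theorem disc_ne_zero (r : H →* Matrix (Fin 2) (Fin 2) k) (h2 : (2 : k) ≠ 0)
    (hcard : (Nat.card H : k) ≠ 0) {g : H} (hg : ¬ IsScalarMat (r g)) :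
    (r g).trace ^ 2 ≠ 4 * (r g).det := by
  intro h
  have hd := det_ne_zero r g
  set G := r g with hG
  set a := G.trace / 2 with ha
  have h4 : G.det = a ^ 2 := by
    have h22 : (4 : k) ≠ 0 := by rw [show (4 : k) = 2 * 2 by norm_num]; exact mul_ne_zero h2 h2
    refine mul_left_cancel₀ h22 ?_
    rw [← h, ha]; field_simp; ring
  have ha0 : a ≠ 0 := fun e => hd (by rw [h4, e]; ring)
  set N := G - a • 1 with hN
  have hNN : N * N = 0 := by
    have t : G 0 0 + G 1 1 = 2 * a := by
      rw [ha, mul_div_cancel₀ _ h2, Matrix.trace_fin_two]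
    rw [Matrix.det_fin_two] at h4
    ext i j
    fin_cases i <;> fin_cases j <;> simp [hN, Matrix.mul_apply, Fin.sum_univ_two]
    · linear_combination G 0 0 * t - h4
    · linear_combination G 0 1 * t
    · linear_combination G 1 0 * t
    · linear_combination G 1 1 * t - h4
  have hpow : ∀ m : ℕ, G ^ (m + 1) = a ^ (m + 1) • 1 + ((m + 1 : ℕ) * a ^ m) • N := by
    intro m
    induction m with
    | zero => simp [hN]
    | succ m ih =>
      have e : G = a • 1 + N := by simp [hN]
      rw [pow_succ, ih, e]
      simp only [add_mul, mul_add, smul_mul_assoc, one_mul, mul_smul_comm, mul_one, hNN,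
        smul_zero, add_zero]
      push_cast
      module
  obtain ⟨m, hm⟩ : ∃ m, Nat.card H = m + 1 :=
    Nat.exists_eq_succ_of_ne_zero Nat.card_pos.ne'
  have e := hpow m
  rw [← hm, hG, ← map_pow, pow_card_eq_one', map_one] at e
  have hc : (Nat.card H : k) * a ^ m ≠ 0 := mul_ne_zero hcard (pow_ne_zero _ ha0)
  have e01 := congrFun (congrFun e 0) 1
  have e10 := congrFun (congrFun e 1) 0
  have e00 := congrFun (congrFun e 0) 0
  have e11 := congrFun (congrFun e 1) 1
  simp [hN] at e01 e10 e00 e11
  refine hg ⟨?_, ?_, ?_⟩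
  · exact e01.resolve_left fun h => h.elim hcard fun h => ha0 h.1
  · exact e10.resolve_left fun h => h.elim hcard fun h => ha0 h.1
  · exact mul_left_cancel₀ hc (by linear_combination e11 - e00)

/-! ### The arithmetic of the class equation -/

theorem false_of_extra {U W b z M N : ℕ} (e : U * (b + 1) = M * b) (hb : 5 ≤ b) (hz : 0 < z)
    (hM : M = N + z) (h : U + W ≤ N) (hW : M ≤ 4 * W) : False := by
  nlinarith [Nat.mul_le_mul_left (b + 1) h, Nat.mul_le_mul_left (b + 1) hW,
    Nat.mul_le_mul_left M hb]

theorem le_of_small {U W b z M N : ℕ} (e : 2 * U * (b + 1) = M * b) (hM : M = N + z)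
    (h : U + W = N) (hW : 2 * W ≤ M) : M ≤ 2 * ((b + 1) * z) := by
  subst h
  nlinarith [Nat.mul_le_mul_left (b + 1) hW]

theorem false_of_large {U W b z M N : ℕ} (e : 2 * U * (b + 1) = M * b) (hb : 5 ≤ b) (hz : 0 < z)
    (hM : M = N + z) (h : U + W ≤ N) (hW : 7 * M ≤ 12 * W) : False := by
  nlinarith [Nat.mul_le_mul_left (b + 1) h, Nat.mul_le_mul_left (b + 1) hW,
    Nat.mul_le_mul_left M hb]

section count

variable [Fintype H] [DecidableEq H] (r : H →* Matrix (Fin 2) (Fin 2) k)

open Classical in
/-- The elements which are not scalar. -/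
def nonScalar : Finset H := {x | ¬ IsScalarMat (r x)}

/-- The centraliser, as a finite set. -/
def cent (g : H) : Finset H := {x | x * g = g * x}

/-- The elements moving `g` inside its centraliser. -/
def normSet (g : H) : Finset H := {n | n * g * n⁻¹ * g = g * (n * g * n⁻¹)}

open Classical in
/-- The class of `g`: what commutes with a conjugate of `g` and is not scalar. -/
def classOf (g : H) : Finset H :=
  (nonScalar r).filter fun x => ∃ h : H, x * (h * g * h⁻¹) = h * g * h⁻¹ * x

variable {r} (hr : Function.Injective r)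
include hr

theorem commute_iff {x y : H} : x * y = y * x ↔ r x * r y = r y * r x := by
  rw [← map_mul, ← map_mul, hr.eq_iff]

theorem scalar_comm {x : H} (hx : IsScalarMat (r x)) (y : H) : y * x = x * y :=
  (commute_iff hr).mpr (hx.comm _)

theorem trans_comm {g x y : H} (hg : ¬ IsScalarMat (r g)) (hx : x * g = g * x)
    (hy : y * g = g * y) : x * y = y * x :=
  (commute_iff hr).mpr (comm_of_comm hg ((commute_iff hr).mp hx) ((commute_iff hr).mp hy))

theorem not_scalar_conj {g : H} (hg : ¬ IsScalarMat (r g)) (h : H) :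
    ¬ IsScalarMat (r (h * g * h⁻¹)) := fun e => hg (by
  have e' := scalar_comm hr e h
  rwa [show g = h * g * h⁻¹ from by
    calc g = h⁻¹ * (h * g * h⁻¹ * h) := by group
      _ = h⁻¹ * (h * (h * g * h⁻¹)) := by rw [e']
      _ = h * g * h⁻¹ := by group])

/-- The two possible conjugates of `g` in its centraliser. -/
theorem conj_eq (h2 : (2 : k) ≠ 0) (hcard : (Nat.card H : k) ≠ 0) {g n : H}
    (hg : ¬ IsScalarMat (r g)) (hn : n ∈ normSet g) :
    r (n * g * n⁻¹) = r g ∨ r (n * g * n⁻¹) = (r g).trace • 1 - r g := by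
  simp only [normSet, mem_filter, mem_univ, true_and] at hn
  obtain ⟨u, v, e⟩ := exists_eq_add_smul hg ((commute_iff hr).mp hn)
  have hu : r n * r n⁻¹ = 1 := by rw [← map_mul, mul_inv_cancel, map_one]
  have hu' : r n⁻¹ * r n = 1 := by rw [← map_mul, inv_mul_cancel, map_one]
  rw [e]
  refine eq_or_eq_trace_sub h2 (disc_ne_zero r h2 hcard hg) ?_ ?_
  · rw [← e, map_mul, map_mul, Matrix.trace_mul_comm, ← mul_assoc, hu', one_mul]
  · rw [← e, map_mul, map_mul, det_mul, det_mul, mul_comm, ← mul_assoc, ← det_mul, hu', det_one,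
      one_mul]

theorem card_normSet (h2 : (2 : k) ≠ 0) (hcard : (Nat.card H : k) ≠ 0) {g : H}
    (hg : ¬ IsScalarMat (r g)) :
    #(normSet g) = #(cent g) ∨ #(normSet g) = 2 * #(cent g) := by
  have hsub : cent g ⊆ normSet g := fun n hn => by
    simp only [cent, normSet, mem_filter, mem_univ, true_and] at hn ⊢
    rw [show n * g * n⁻¹ = g by rw [hn, mul_inv_cancel_right]]
  by_cases hall : normSet g ⊆ cent g
  · exact Or.inl (congrArg Finset.card (hall.antisymm hsub))
  right
  obtain ⟨h, hh, hhc⟩ := Finset.not_subset.mp hall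
  have hh' := (conj_eq hr h2 hcard hg hh).resolve_left fun e => hhc (by
    simp only [cent, mem_filter, mem_univ, true_and]
    exact mul_inv_eq_iff_eq_mul.mp (hr e))
  have key : normSet g \ cent g = (cent g).image (h * ·) := by
    ext n
    simp only [mem_sdiff, mem_image]
    constructor
    · rintro ⟨hn, hnc⟩
      have hn' := (conj_eq hr h2 hcard hg hn).resolve_left fun e => hnc (by
        simp only [cent, mem_filter, mem_univ, true_and]
        exact mul_inv_eq_iff_eq_mul.mp (hr e))
      have e : n * g * n⁻¹ = h * g * h⁻¹ := hr (hn'.trans hh'.symm)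
      refine ⟨h⁻¹ * n, ?_, by group⟩
      simp only [cent, mem_filter, mem_univ, true_and]
      calc h⁻¹ * n * g = h⁻¹ * (n * g * n⁻¹) * n := by group
        _ = g * (h⁻¹ * n) := by rw [e]; group
    · rintro ⟨c, hc, rfl⟩
      simp only [cent, normSet, mem_filter, mem_univ, true_and] at hc hh hhc ⊢
      have e : h * c * g * (h * c)⁻¹ = h * g * h⁻¹ := by
        rw [mul_assoc h c g, hc]; group
      refine ⟨by rw [e]; exact hh, fun e' => hhc ?_⟩
      refine mul_inv_eq_iff_eq_mul.mp ?_
      rw [← e, e', mul_inv_cancel_right]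
  rw [← Finset.card_sdiff_add_card_eq_card hsub, key,
    Finset.card_image_of_injective _ (mul_right_injective h), two_mul]

/-- **The size of a class.** -/
theorem card_classOf {g : H} (hg : ¬ IsScalarMat (r g)) :
    #(classOf r g) * #(normSet g) = Fintype.card H * #(cent g ∩ nonScalar r) := by
  rw [← Finset.card_univ, ← Finset.card_product (univ : Finset H)]
  have hmaps : Set.MapsTo (fun p : H × H => p.1 * p.2 * p.1⁻¹)
      (univ ×ˢ (cent g ∩ nonScalar r) : Finset (H × H)) (classOf r g) := by
    rintro ⟨h, x⟩ hp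
    simp only [coe_product, Set.mem_prod, mem_coe, mem_inter, cent, nonScalar, mem_filter,
      mem_univ, true_and] at hp
    simp only [classOf, nonScalar, coe_filter, Set.mem_ofPred_eq, mem_filter, mem_univ, true_and]
    refine ⟨not_scalar_conj hr hp.2 h, h, ?_⟩
    calc h * x * h⁻¹ * (h * g * h⁻¹) = h * (x * g) * h⁻¹ := by group
      _ = h * g * h⁻¹ * (h * x * h⁻¹) := by rw [hp.1]; group
  rw [Finset.card_eq_sum_card_fiberwise hmaps, Finset.sum_const_nat]
  intro y hy
  simp only [classOf, nonScalar, mem_filter, mem_univ, true_and] at hy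
  obtain ⟨hy, h₀, hc⟩ := hy
  have hx₀ : h₀⁻¹ * y * h₀ * g = g * (h₀⁻¹ * y * h₀) := by
    calc h₀⁻¹ * y * h₀ * g = h₀⁻¹ * (y * (h₀ * g * h₀⁻¹)) * h₀ := by group
      _ = g * (h₀⁻¹ * y * h₀) := by rw [hc]; group
  refine Finset.card_bij' (fun p _ => h₀⁻¹ * p.1) (fun n _ => (h₀ * n, (h₀ * n)⁻¹ * y * (h₀ * n)))
    ?_ ?_ ?_ ?_
  · rintro ⟨h, x⟩ hp
    simp only [mem_filter, mem_product, mem_univ, true_and, mem_inter, cent, nonScalar] at hp
    obtain ⟨⟨hxg, hx⟩, e⟩ := hp
    simp only [normSet, mem_filter, mem_univ, true_and]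
    refine trans_comm hr (g := h₀⁻¹ * y * h₀) (by simpa using not_scalar_conj hr hy h₀⁻¹) ?_
      hx₀.symm
    rw [← e]
    calc h₀⁻¹ * h * g * (h₀⁻¹ * h)⁻¹ * (h₀⁻¹ * (h * x * h⁻¹) * h₀)
        = h₀⁻¹ * h * (g * x) * (h⁻¹ * h₀) := by group
      _ = _ := by rw [← hxg]; group
  · intro n hn
    simp only [normSet, mem_filter, mem_univ, true_and] at hn
    simp only [mem_filter, mem_product, mem_univ, true_and, mem_inter, cent, nonScalar]
    refine ⟨⟨?_, ?_⟩, by group⟩
    · have k1 := trans_comm hr hg hx₀ hn
      calc (h₀ * n)⁻¹ * y * (h₀ * n) * g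
          = n⁻¹ * (h₀⁻¹ * y * h₀ * (n * g * n⁻¹)) * n := by group
        _ = g * ((h₀ * n)⁻¹ * y * (h₀ * n)) := by rw [k1]; group
    · simpa using not_scalar_conj hr hy (h₀ * n)⁻¹
  · rintro ⟨h, x⟩ hp
    simp only [mem_filter] at hp
    simp only [mul_inv_cancel_left, Prod.mk.injEq, true_and]
    rw [← hp.2]; group
  · intro n _
    simp

/-- Two classes are equal or disjoint. -/
theorem disjoint_classOf {g g' : H} (hg' : ¬ IsScalarMat (r g')) (h : g' ∉ classOf r g) :
    Disjoint (classOf r g) (classOf r g') := by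
  rw [Finset.disjoint_left]
  intro y hy hy'
  simp only [classOf, nonScalar, mem_filter, mem_univ, true_and] at hy hy' h
  obtain ⟨hy, a, ha⟩ := hy
  obtain ⟨-, b, hb⟩ := hy'
  refine h ⟨hg', b⁻¹ * a, ?_⟩
  have k1 := trans_comm hr hy ha.symm hb.symm
  calc g' * (b⁻¹ * a * g * (b⁻¹ * a)⁻¹) = b⁻¹ * (b * g' * b⁻¹ * (a * g * a⁻¹)) * b := by group
    _ = _ := by rw [← k1]; group

theorem classOf_subset (g : H) : classOf r g ⊆ nonScalar r := Finset.filter_subset _ _

/-- The scalar elements make up a subgroup of every centraliser. -/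
theorem exists_card_cent {g : H} (hg : ¬ IsScalarMat (r g)) :
    ∃ a : ℕ, 2 ≤ a ∧ #(cent g) = a * (Fintype.card H - #(nonScalar r)) ∧
      #(cent g ∩ nonScalar r) = (a - 1) * (Fintype.card H - #(nonScalar r)) := by
  classical
  let Z : Subgroup H :=
    { carrier := {x | IsScalarMat (r x)}
      one_mem' := by simp [IsScalarMat]
      mul_mem' := fun {x y} hx hy => by
        obtain ⟨a, b, c⟩ := hx
        obtain ⟨d, e, f⟩ := hy
        refine ⟨?_, ?_, ?_⟩ <;> simp [map_mul, Matrix.mul_apply, Fin.sum_univ_two, a, b, c, d, e, f]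
      inv_mem' := fun {x} hx => by
        have hc := fun y => scalar_comm hr hx y
        by_contra hn
        have h1 : r x⁻¹ * r x = 1 := by rw [← map_mul, inv_mul_cancel, map_one]
        obtain ⟨a, b, c⟩ := hx
        have d00 := congrFun (congrFun h1 0) 0
        have d01 := congrFun (congrFun h1 0) 1
        have d10 := congrFun (congrFun h1 1) 0
        have d11 := congrFun (congrFun h1 1) 1
        simp [Matrix.mul_apply, Fin.sum_univ_two, a, b, c] at d00 d01 d10 d11
        have h0 : r x 1 1 ≠ 0 := fun e => by simp [e] at d00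
        exact hn ⟨d01.resolve_right h0, d10.resolve_right h0,
          mul_right_cancel₀ h0 (d00.trans d11.symm)⟩ }
  have hZ : Nat.card Z = Fintype.card H - #(nonScalar r) := by
    have e := Finset.card_filter_add_card_filter_not (s := (univ : Finset H))
      (fun x => ¬ IsScalarMat (r x))
    simp only [not_not, Finset.card_univ] at e
    rw [Nat.card_eq_fintype_card, show Fintype.card Z = #{x : H | IsScalarMat (r x)} from
      Fintype.card_subtype _]
    simp only [nonScalar]
    omega
  have hle : Z ≤ Subgroup.centralizer {g} := fun x hx =>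
    Subgroup.mem_centralizer_singleton_iff.mpr (scalar_comm hr hx g).symm
  obtain ⟨a, ha⟩ := Subgroup.card_dvd_of_le hle
  have hC : Nat.card (Subgroup.centralizer {g}) = #(cent g) := by
    rw [Nat.card_eq_fintype_card]
    exact Fintype.card_of_subtype (cent g) fun x => by
      simp [cent, Subgroup.mem_centralizer_singleton_iff]
  rw [hC, hZ, mul_comm] at ha
  have hsplit : #(cent g ∩ nonScalar r) + (Fintype.card H - #(nonScalar r)) = #(cent g) := by
    rw [← hZ, Nat.card_eq_fintype_card, show Fintype.card Z = #{x : H | IsScalarMat (r x)} from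
      Fintype.card_subtype _, ← Finset.card_sdiff_add_card_inter (cent g) (nonScalar r), add_comm]
    congr 1
    congr 1
    ext x
    simp only [mem_sdiff, nonScalar, mem_filter, mem_univ, true_and, not_not, cent]
    exact ⟨fun h => ⟨(scalar_comm hr h g).symm, h⟩, fun h => h.2⟩
  have hpos : 0 < #(cent g ∩ nonScalar r) :=
    Finset.card_pos.mpr ⟨g, by simp [cent, nonScalar, hg]⟩
  refine ⟨a, ?_, ha, ?_⟩
  · by_contra h
    interval_cases a <;> omega
  · rw [Nat.sub_mul, ← ha, one_mul]; omega

/-- A class fills a quarter, or at least a third, and then at most a half or at least two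
thirds. -/
theorem class_trichotomy (h2 : (2 : k) ≠ 0) (hcard : (Nat.card H : k) ≠ 0) {g : H}
    (hg : ¬ IsScalarMat (r g)) :
    4 * #(classOf r g) = Fintype.card H ∨ Fintype.card H ≤ 3 * #(classOf r g) ∧
      (2 * #(classOf r g) ≤ Fintype.card H ∨ 2 * Fintype.card H ≤ 3 * #(classOf r g)) := by
  obtain ⟨a, ha, hc, hd⟩ := exists_card_cent hr hg
  have hz : 0 < Fintype.card H - #(nonScalar r) := by
    have := Finset.card_pos.mpr (⟨g, by simp [cent]⟩ : (cent g).Nonempty)
    rw [hc] at this
    exact Nat.pos_of_mul_pos_left this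
  have e := card_classOf hr hg
  rw [hd] at e
  obtain ⟨b, rfl⟩ : ∃ b, a = b + 1 := ⟨a - 1, by omega⟩
  rw [Nat.add_sub_cancel] at e
  rcases card_normSet hr h2 hcard hg with hn | hn <;> rw [hn, hc] at e
  · have e' : #(classOf r g) * (b + 1) = Fintype.card H * b :=
      Nat.eq_of_mul_eq_mul_right hz (by linarith)
    rcases Nat.lt_or_ge b 2 with hb | hb
    · obtain rfl : b = 1 := by omega
      omega
    · exact Or.inr ⟨by nlinarith, Or.inr (by nlinarith)⟩
  · have e' : 2 * #(classOf r g) * (b + 1) = Fintype.card H * b :=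
      Nat.eq_of_mul_eq_mul_right hz (by linarith)
    rcases Nat.lt_or_ge b 2 with hb | hb
    · obtain rfl : b = 1 := by omega
      omega
    · exact Or.inr ⟨by nlinarith, Or.inl (by nlinarith)⟩

theorem quarter_le_classOf (h2 : (2 : k) ≠ 0) (hcard : (Nat.card H : k) ≠ 0) {g : H}
    (hg : ¬ IsScalarMat (r g)) : Fintype.card H ≤ 4 * #(classOf r g) := by
  rcases class_trichotomy hr h2 hcard hg with h | ⟨h, -⟩ <;> omega

theorem six_le {s : H} (hs : ∀ n, 0 < n → n < 6 → ¬ IsScalarMat (r (s ^ n))) :
    6 * (Fintype.card H - #(nonScalar r)) ≤ #(cent s) := by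
  classical
  rw [show Fintype.card H - #(nonScalar r) = #{x : H | IsScalarMat (r x)} by
    have e := Finset.card_filter_add_card_filter_not (s := (univ : Finset H))
      (fun x => ¬ IsScalarMat (r x))
    simp only [not_not, Finset.card_univ] at e
    simp only [nonScalar]
    omega, show (6 : ℕ) = #(Finset.range 6) from rfl, ← Finset.card_product]
  refine Finset.card_le_card_of_injOn (fun p => s ^ p.1 * p.2) ?_ ?_
  · rintro ⟨i, x⟩ hp
    simp only [coe_product, Set.mem_prod, mem_coe, mem_filter, mem_univ, true_and] at hp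
    simp only [cent, coe_filter, Set.mem_ofPred_eq, mem_univ, true_and]
    rw [mul_assoc, ← scalar_comm hr hp.2 s, ← mul_assoc, ← mul_assoc, ← pow_succ, ← pow_succ']
  · rintro ⟨i, x⟩ hp ⟨j, y⟩ hq e
    simp only [coe_product, Set.mem_prod, mem_coe, mem_filter, mem_univ, true_and,
      Finset.mem_range] at hp hq
    simp only at e
    have key : ∀ {i j : ℕ} {x y : H}, j < 6 → i ≤ j → IsScalarMat (r x) → IsScalarMat (r y) →
        s ^ i * x = s ^ j * y → i = j := fun {i j x y} hj hij hx hy e => by
      by_contra hne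
      have e' : x = s ^ (j - i) * y := mul_left_cancel (a := s ^ i) (by
        rw [e, ← mul_assoc, ← pow_add, Nat.add_sub_cancel' hij])
      refine hs (j - i) (by omega) (by omega) ?_
      obtain ⟨a, b, c⟩ := hx
      obtain ⟨d, f, g⟩ := hy
      rw [e', map_mul] at a b c
      rw [map_pow] at a b c ⊢
      have h0 : r y 1 1 ≠ 0 := fun h => det_ne_zero r y (by simp [Matrix.det_fin_two, d, f, g, h])
      simp [Matrix.mul_apply, Fin.sum_univ_two, d, f, g, h0] at a b c
      exact ⟨a, b, c⟩
    obtain rfl : i = j := by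
      rcases le_total i j with h | h
      · exact key hq.1 h hp.2 hq.2 e
      · exact (key hp.1 h hq.2 hp.2 e.symm).symm
    rw [mul_left_cancel e]

/-- **The centraliser of an element of projective order at least six has index at most two.** -/
theorem card_normSet_eq (h2 : (2 : k) ≠ 0) (hcard : (Nat.card H : k) ≠ 0) {s : H}
    (hs : ∀ n, 0 < n → n < 6 → ¬ IsScalarMat (r (s ^ n))) :
    #(normSet s) = Fintype.card H := by
  have hg : ¬ IsScalarMat (r s) := by simpa using hs 1 one_pos (by norm_num)
  obtain ⟨a, ha, hc, hd⟩ := exists_card_cent hr hg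
  have h6 := six_le hr hs
  have hsub : #(nonScalar r) < Fintype.card H := by
    refine Finset.card_lt_univ_of_notMem (x := 1) ?_
    simp only [nonScalar, mem_filter, mem_univ, true_and, not_not]
    simp [IsScalarMat]
  obtain ⟨z, hz, hM⟩ : ∃ z, 0 < z ∧ Fintype.card H = #(nonScalar r) + z :=
    ⟨Fintype.card H - #(nonScalar r), by omega, by omega⟩
  rw [show Fintype.card H - #(nonScalar r) = z by omega] at hc hd h6
  have ha6 : 6 ≤ a := Nat.le_of_mul_le_mul_right (hc ▸ h6) hz
  have e := card_classOf hr hg
  rw [hd] at e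
  obtain ⟨b, rfl⟩ : ∃ b, a = b + 1 := ⟨a - 1, by omega⟩
  rw [Nat.add_sub_cancel] at e
  have hle : #(normSet s) ≤ Fintype.card H := Finset.card_le_univ _
  -- the classes of elements outside the previous ones
  have next_class : ∀ U : Finset H, U ⊆ nonScalar r → #U < #(nonScalar r) →
      ∃ g, ¬ IsScalarMat (r g) ∧ g ∉ U := fun U hU h => by
    obtain ⟨g, hg, hgU⟩ := Finset.exists_mem_notMem_of_card_lt_card h
    exact ⟨g, by simpa [nonScalar] using hg, hgU⟩
  set U₁ := classOf r s
  have hU₁ : U₁ ⊆ nonScalar r := classOf_subset hr s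
  rcases card_normSet hr h2 hcard hg with hn | hn <;> rw [hn, hc] at e hle ⊢
  · have e' : #U₁ * (b + 1) = Fintype.card H * b := Nat.eq_of_mul_eq_mul_right hz (by linarith)
    rcases (Finset.card_le_card hU₁).eq_or_lt with h | h
    · rw [h, hM] at e'
      linarith
    · obtain ⟨g₂, hg₂, hn₂⟩ := next_class U₁ hU₁ h
      have hs₂ := Finset.card_le_card (Finset.union_subset hU₁ (classOf_subset hr g₂))
      rw [Finset.card_union_of_disjoint (disjoint_classOf hr hg₂ hn₂)] at hs₂
      exact (false_of_extra e' (by omega) hz hM hs₂ (quarter_le_classOf hr h2 hcard hg₂)).elim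
  · have e' : 2 * #U₁ * (b + 1) = Fintype.card H * b :=
      Nat.eq_of_mul_eq_mul_right hz (by linarith)
    refine le_antisymm hle ?_
    rcases (Finset.card_le_card hU₁).eq_or_lt with h | h
    · exact le_of_small e' hM (W := 0) (by omega) (by omega)
    obtain ⟨g₂, hg₂, hn₂⟩ := next_class U₁ hU₁ h
    have hU₂ := Finset.union_subset hU₁ (classOf_subset hr g₂)
    have d₂ := Finset.card_union_of_disjoint (disjoint_classOf hr hg₂ hn₂)
    have t₂ := class_trichotomy hr h2 hcard hg₂
    have big := fun {W : ℕ} => false_of_large (W := W) e' (by omega : 5 ≤ b) hz hM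
    rcases (Finset.card_le_card hU₂).eq_or_lt with h | h
    · rw [d₂] at h
      rcases t₂ with t | ⟨-, t | t⟩
      · exact le_of_small e' hM h (by omega)
      · exact le_of_small e' hM h t
      · exact (big h.le (by omega)).elim
    obtain ⟨g₃, hg₃, hn₃⟩ := next_class _ hU₂ h
    simp only [Finset.mem_union, not_or] at hn₃
    have hU₃ := Finset.union_subset hU₂ (classOf_subset hr g₃)
    have d₃ := Finset.card_union_of_disjoint (Finset.disjoint_union_left.mpr
      ⟨disjoint_classOf hr hg₃ hn₃.1, disjoint_classOf hr hg₃ hn₃.2⟩)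
    rw [d₂, add_assoc] at d₃
    have t₃ := class_trichotomy hr h2 hcard hg₃
    have hs₃ := Finset.card_le_card hU₃
    rw [d₃] at hs₃
    by_cases hq : 4 * #(classOf r g₂) = Fintype.card H ∧ 4 * #(classOf r g₃) = Fintype.card H
    · rcases (Finset.card_le_card hU₃).eq_or_lt with h | h
      · rw [d₃] at h
        exact le_of_small e' hM h (by omega)
      obtain ⟨g₄, hg₄, hn₄⟩ := next_class _ hU₃ h
      simp only [Finset.mem_union, not_or] at hn₄
      have hs₄ := Finset.card_le_card (Finset.union_subset hU₃ (classOf_subset hr g₄))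
      rw [Finset.card_union_of_disjoint (Finset.disjoint_union_left.mpr
        ⟨Finset.disjoint_union_left.mpr ⟨disjoint_classOf hr hg₄ hn₄.1.1,
          disjoint_classOf hr hg₄ hn₄.1.2⟩, disjoint_classOf hr hg₄ hn₄.2⟩), d₃, add_assoc] at hs₄
      have q := quarter_le_classOf hr h2 hcard hg₄
      exact (big hs₄ (by omega)).elim
    · exact (big hs₃ (by omega)).elim

end count

/-- **A group of `2 × 2` matrices of order prime to the characteristic with an element `s` of
projective order at least six is, up to index two, the centraliser of `s`**: it is commutative,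
and outside it the trace vanishes. -/
theorem dihedral_of_order_prime_to_char (r : H →* Matrix (Fin 2) (Fin 2) k)
    (hr : Function.Injective r) (h2 : (2 : k) ≠ 0) (hcard : (Nat.card H : k) ≠ 0) {s : H}
    (hs : ∀ n, 0 < n → n < 6 → ¬ IsScalarMat (r (s ^ n))) :
    ∃ C : Subgroup H, C.index ≤ 2 ∧ C = Subgroup.centralizer {s} ∧
      (∀ a ∈ C, ∀ b ∈ C, a * b = b * a) ∧ ∀ g ∉ C, (r g).trace = 0 := by
  classical
  have := Fintype.ofFinite H
  have hg : ¬ IsScalarMat (r s) := by simpa using hs 1 one_pos (by norm_num)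
  have hN := card_normSet_eq hr h2 hcard hs
  have hall : ∀ n, n ∈ normSet s := fun n => by
    rw [Finset.eq_univ_of_card _ hN]; exact Finset.mem_univ _
  refine ⟨Subgroup.centralizer {s}, ?_, rfl, fun a ha b hb => ?_, fun g hgC => ?_⟩
  · have hC : Nat.card (Subgroup.centralizer {s}) = #(cent s) := by
      rw [Nat.card_eq_fintype_card]
      exact Fintype.card_of_subtype (cent s) fun x => by
        simp [cent, Subgroup.mem_centralizer_singleton_iff]
    have hm := (Subgroup.centralizer {s}).card_mul_index
    rw [hC, Nat.card_eq_fintype_card, ← hN] at hm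
    have hpos : 0 < #(cent s) := Finset.card_pos.mpr ⟨s, by simp [cent]⟩
    rcases card_normSet hr h2 hcard hg with h | h <;> rw [h] at hm <;> nlinarith
  · rw [Subgroup.mem_centralizer_singleton_iff] at ha hb
    exact trans_comm hr hg ha hb
  · rw [Subgroup.mem_centralizer_singleton_iff] at hgC
    have hne : r g * r s ≠ r s * r g := fun h => hgC ((commute_iff hr).mpr h)
    have e := (conj_eq hr h2 hcard hg (hall g)).resolve_left fun e =>
      hgC (mul_inv_eq_iff_eq_mul.mp (hr e))
    have e' : r g * r s = ((r s).trace • 1 - r s) * r g := by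
      rw [← e, ← map_mul, ← map_mul, inv_mul_cancel_right]
    have sq : r g * r g * r s = r s * (r g * r g) := by
      rw [mul_assoc, e', ← mul_assoc, mul_sub, e', mul_smul_comm, mul_one, sub_mul, sub_mul,
        smul_mul_assoc, smul_mul_assoc, one_mul, sub_mul, smul_mul_assoc, sub_sub_cancel,
        mul_assoc]
    by_contra ht
    refine hne ?_
    have ch : r g * r g = (r g).trace • r g - (r g).det • 1 := by
      ext i j
      fin_cases i <;> fin_cases j <;>
        simp [Matrix.trace_fin_two, Matrix.det_fin_two, Matrix.mul_apply, Fin.sum_univ_two] <;> ring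
    rw [ch, sub_mul, mul_sub, smul_mul_assoc, smul_mul_assoc, mul_smul_comm, mul_smul_comm,
      one_mul, mul_one, sub_left_inj] at sq
    exact (smul_right_injective _ ht) sq

local notation "M2" => Matrix (Fin 2) (Fin 2)

theorem not_isScalarMat_of {M : M2 k} (h : ∀ c : k, M ≠ c • 1) : ¬ IsScalarMat M :=
  fun ⟨a, b, c⟩ => h (M 0 0) (by ext i j; fin_cases i <;> fin_cases j <;> simp [a, b, ← c])

/-- Two matrices commuting with one which is not scalar commute. -/
theorem commute_of_commute {k : Type*} [Field k] {M x y : M2 k} (hM : ∀ c : k, M ≠ c • 1)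
    (hx : Commute x M) (hy : Commute y M) : Commute x y :=
  comm_of_comm (not_isScalarMat_of hM) hx hy

/-- A nilpotent `2 × 2` matrix has square zero. -/
theorem mul_self_eq_zero_of_pow {N : M2 k} {n : ℕ} (hn : n ≠ 0) (h : N ^ n = 0) : N * N = 0 := by
  have hd : N.det = 0 := by
    have := congrArg Matrix.det h
    rw [det_pow, det_zero] at this
    exact eq_zero_of_pow_eq_zero this
  have ch : N * N = N.trace • N := by
    rw [Matrix.det_fin_two] at hd
    ext i j
    fin_cases i <;> fin_cases j <;> simp [Matrix.trace_fin_two, Matrix.mul_apply, Fin.sum_univ_two]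
    · linear_combination -hd
    · ring
    · ring
    · linear_combination -hd
  have hpow : ∀ m : ℕ, N ^ (m + 1) = N.trace ^ m • N := by
    intro m
    induction m with
    | zero => simp
    | succ m ih => rw [pow_succ, ih, smul_mul_assoc, ch, smul_smul, pow_succ]
  obtain ⟨m, rfl⟩ := Nat.exists_eq_succ_of_ne_zero hn
  rw [hpow m, smul_eq_zero] at h
  rcases h with h | h
  · rw [ch, eq_zero_of_pow_eq_zero h, zero_smul]
  · rw [h, mul_zero]

/-- Modulo `2` the invertible matrices have order at most three. -/
theorem exists_pow_eq_one_two :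
    ∀ M : M2 (ZMod 2), M.det ≠ 0 → M ^ 1 = 1 ∨ M ^ 2 = 1 ∨ M ^ 3 = 1 := by decide +kernel

/-- **A representation modulo `p` without unipotent elements and with an element `r h` of
projective order at least six**: outside the centraliser of `r h` the trace vanishes, and the
product of two elements outside lies inside. -/
theorem trace_eq_zero_of_not_commute {p : ℕ} [Fact p.Prime] {G : Type*} [Group G]
    (r : G →* M2 (ZMod p)) (hunip : ∀ g, (r g - 1) * (r g - 1) = 0 → r g = 1) {h : G}
    (hh : ∀ n : ℕ, 0 < n → n < 6 → ∀ c : ZMod p, r h ^ n ≠ c • 1) {x : G}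
    (hx : ¬ Commute (r x) (r h)) :
    (r x).trace = 0 ∧ ∀ y : G, ¬ Commute (r y) (r h) → Commute (r (x * y)) (r h) := by
  let u := r.toHomUnits
  let i : u.range →* M2 (ZMod p) := (Units.coeHom _).comp u.range.subtype
  have hi : Function.Injective i := Units.val_injective.comp Subtype.val_injective
  have : Finite u.range := Finite.of_injective i hi
  have hp : p.Prime := Fact.out
  have h2 : (2 : ZMod p) ≠ 0 := by
    intro h2
    obtain rfl : p = 2 := (Nat.prime_dvd_prime_iff_eq hp Nat.prime_two).mp
      ((ZMod.natCast_eq_zero_iff 2 p).mp (by exact_mod_cast h2))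
    rcases exists_pow_eq_one_two (r h)
      ((Matrix.isUnit_iff_isUnit_det _).mp ((Group.isUnit h).map r)).ne_zero with e | e | e <;>
      exact hh _ (by norm_num) (by norm_num) 1 (e.trans (one_smul _ _).symm)
  have hcard : (Nat.card u.range : ZMod p) ≠ 0 := by
    intro hc
    obtain ⟨g, hg⟩ := exists_prime_orderOf_dvd_card' p ((ZMod.natCast_eq_zero_iff _ p).mp hc)
    obtain ⟨_, g₀, rfl⟩ := g
    have hpow : r g₀ ^ p = 1 := congrArg i (hg ▸ pow_orderOf_eq_one (⟨u g₀, g₀, rfl⟩ : u.range))
    have hN : (r g₀ - 1) ^ p = 0 := by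
      haveI : CharP (M2 (ZMod p)) p := inferInstanceAs (CharP (Matrix _ _ (ZMod p)) p)
      rw [sub_pow_char_of_commute p (Commute.one_right _), one_pow, hpow, sub_self]
    have h1 := hunip g₀ (mul_self_eq_zero_of_pow hp.ne_zero hN)
    refine hp.ne_one (hg ▸ orderOf_eq_one_iff.mpr (hi ?_))
    rw [map_one]
    exact h1
  obtain ⟨C, hidx, rfl, -, htr⟩ := dihedral_of_order_prime_to_char i hi h2 hcard
    (s := u.rangeRestrict h) fun n h0 h6 e =>
      hh n h0 h6 ((r (h ^ n)) 0 0) (by
        rw [map_pow, ← map_pow r]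
        obtain ⟨a, b, c⟩ : IsScalarMat (r (h ^ n)) := by
          rw [← map_pow] at e
          exact e
        ext i j; fin_cases i <;> fin_cases j <;> simp [a, b, ← c])
  have hmem : ∀ g : G, u.rangeRestrict g ∈ Subgroup.centralizer {u.rangeRestrict h} ↔
      Commute (r g) (r h) := fun g => by
    rw [Subgroup.mem_centralizer_singleton_iff, ← hi.eq_iff, map_mul, map_mul]
    rfl
  refine ⟨htr (u.rangeRestrict x) (fun hc => hx ((hmem x).mp hc)), fun y hy => (hmem _).mp ?_⟩
  have h2' : (Subgroup.centralizer {u.rangeRestrict h}).index = 2 := by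
    have h0 : (Subgroup.centralizer {u.rangeRestrict h}).index ≠ 0 :=
      Subgroup.index_ne_zero_of_finite
    have h1 : (Subgroup.centralizer {u.rangeRestrict h}).index ≠ 1 := fun e =>
      hx ((hmem x).mp (Subgroup.index_eq_one.mp e ▸ Subgroup.mem_top _))
    omega
  rw [map_mul]
  exact (Subgroup.mul_mem_iff_of_index_two h2').mpr
    (iff_of_false (fun hc => hx ((hmem x).mp hc)) (fun hc => hy ((hmem y).mp hc)))

end FA.SerreLarge

end
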