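import Fermat.Agent.Root.GlobalModel

/-!
# One integral equation which is good at every prime of good reduction
-/

set_option autoImplicit false
set_option linter.style.haveILetI false

noncomputable section

namespace FA.SerreLarge

open WeierstrassCurve

/-- An integral equation of `E` with `p ∤ Δ` at every prime `p` of good reduction. -/
theorem exists_goodModel (E : WeierstrassCurve ℚ) [E.IsElliptic] :
    ∃ W : WeierstrassCurve ℤ, W.IsIntegralModelOf E ∧ ∀ p : ℕ, ∀ [Fact p.Prime],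
      (∃ C : VariableChange ℚ_[p],
        HasGoodReduction ℤ_[p] (C • E.map (algebraMap ℚ ℚ_[p]))) → ¬ (p : ℤ) ∣ W.Δ := by
  obtain ⟨W₀, hW₀⟩ := FA.Frob.exists_integralModel E
  generalize hn : W₀.Δ.natAbs = n
  induction n using Nat.strong_induction_on generalizing W₀ with
  | _ n ih =>
    subst hn
    by_cases hs : ∀ p : ℕ, ∀ [Fact p.Prime], (∃ C : VariableChange ℚ_[p],
        HasGoodReduction ℤ_[p] (C • E.map (algebraMap ℚ ℚ_[p]))) → ¬ (p : ℤ) ∣ W₀.Δ
    · exact ⟨W₀, hW₀, hs⟩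
    simp only [not_forall, not_not] at hs
    obtain ⟨p, hp, ⟨C, hgood⟩, hpΔ⟩ := hs
    haveI : IsMinimal ℤ_[p] (C • E.map (algebraMap ℚ ℚ_[p])) := hgood.toIsMinimal
    set V := integralModel ℤ_[p] (C • E.map (algebraMap ℚ ℚ_[p])) with hVdef
    have hC : C • E.map (algebraMap ℚ ℚ_[p]) = V.map PadicInt.Coe.ringHom :=
      (baseChange_integralModel_eq ℤ_[p] _).symm
    have hVΔ : ¬ (p : ℤ_[p]) ∣ V.Δ := fun h => by
      have h1 : IsDedekindDomain.HeightOneSpectrum.valuation ℚ_[p]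
          (IsDiscreteValuationRing.maximalIdeal ℤ_[p]) (algebraMap ℤ_[p] ℚ_[p] V.Δ) < 1 := by
        rw [IsDedekindDomain.HeightOneSpectrum.valuation_lt_one_iff_mem]
        show V.Δ ∈ IsLocalRing.maximalIdeal ℤ_[p]
        rw [PadicInt.maximalIdeal_eq_span_p, Ideal.mem_span_singleton]
        exact h
      rw [hVdef, integralModel_Δ_eq] at h1
      exact h1.ne hgood.goodReduction
    obtain ⟨C₀, hC₀⟩ := hW₀
    set D := C * (C₀.map (algebraMap ℚ ℚ_[p]))⁻¹
    have hD : D • W₀.map (Int.castRingHom ℚ_[p]) = V.map PadicInt.Coe.ringHom := by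
      have h1 : W₀.map (Int.castRingHom ℚ_[p]) =
          (C₀.map (algebraMap ℚ ℚ_[p])) • E.map (algebraMap ℚ ℚ_[p]) := by
        rw [WeierstrassCurve.map_variableChange, hC₀, WeierstrassCurve.map_map]
        congr 1
      rw [h1, mul_smul, inv_smul_smul, hC]
    -- the scale is not a unit, so `p` divides `c₄`
    have hpc : (p : ℤ) ∣ W₀.c₄ := by
      set y := ((D.u⁻¹ : ℚ_[p]ˣ) : ℚ_[p])
      have eΔ : y ^ 12 * (W₀.Δ : ℚ_[p]) = (V.Δ : ℚ_[p]) := by
        have := congrArg WeierstrassCurve.Δ hD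
        rwa [variableChange_Δ, map_Δ, map_Δ, eq_intCast] at this
      have ec : y ^ 4 * (W₀.c₄ : ℚ_[p]) = (V.c₄ : ℚ_[p]) := by
        have := congrArg WeierstrassCurve.c₄ hD
        rwa [variableChange_c₄, map_c₄, map_c₄, eq_intCast] at this
      have nΔ := congrArg (‖·‖) eΔ
      have nc := congrArg (‖·‖) ec
      simp only [norm_mul, norm_pow] at nΔ nc
      have hV1 : ‖(V.Δ : ℚ_[p])‖ = 1 := le_antisymm V.Δ.2
        (not_lt.mp fun h => hVΔ ((PadicInt.norm_lt_one_iff_dvd _).mp h))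
      have hW1 : ‖(W₀.Δ : ℚ_[p])‖ < 1 := (Padic.norm_intCast_lt_one_iff (p := p)).mpr hpΔ
      have hy : 1 < ‖y‖ := by
        by_contra hy
        rw [not_lt] at hy
        have := mul_le_mul_of_nonneg_right (pow_le_one₀ (n := 12) (norm_nonneg y) hy)
          (norm_nonneg (W₀.Δ : ℚ_[p]))
        rw [nΔ, hV1, one_mul] at this
        linarith
      rw [← Padic.norm_intCast_lt_one_iff (p := p)]
      by_contra hc
      rw [not_lt] at hc
      have h4 : 1 < ‖y‖ ^ 4 := one_lt_pow₀ hy (by norm_num)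
      have hlt : 1 < ‖y‖ ^ 4 * ‖(W₀.c₄ : ℚ_[p])‖ := by nlinarith
      rw [nc] at hlt
      exact not_le.mpr hlt V.c₄.2
    obtain ⟨C', W', hW', hΔ'⟩ :=
      FA.Root.exists_smaller_model W₀ D V hD (fun h => hVΔ h.1) hpΔ hpc
    have hΔ0 : W'.Δ ≠ 0 := fun e =>
      FA.Frob.Δ_ne_zero_of_model (E := E) ⟨C₀, hC₀⟩ (by rw [← hΔ', e, zero_mul])
    refine ih _ ?_ W' ⟨C' * C₀, by rw [mul_smul, hC₀, hW']⟩ rfl
    rw [← hΔ', Int.natAbs_mul, Int.natAbs_pow, Int.natAbs_natCast]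
    exact lt_mul_of_one_lt_right (Int.natAbs_pos.mpr hΔ0)
      (Nat.one_lt_pow (by norm_num) hp.out.one_lt)

end FA.SerreLarge

end
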