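import Fermat.Agent.Twists.KroneckerChar
import Fermat.Agent.OpenImageJ.IndexTwo
import Fermat.Agent.Density.Places
import Fermat.Agent.TW.Frobenius
import Fermat.Agent.CM.EndoSquare

/-!
# The quadratic field of a subgroup of index two

An open subgroup of index two of the Galois group of `ℚ` is the fixing group of a square root of a
squarefree integer `d ≠ 1`, and a Frobenius element at a prime modulo which `d` is not a square lies
outside it.
-/

set_option autoImplicit false
set_option linter.style.haveILetI false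

noncomputable section

open FA.LocalDef

local notation "Qb" => AlgebraicClosure ℚ
local notation "GQ" => AlgebraicClosure ℚ ≃ₐ[ℚ] AlgebraicClosure ℚ

namespace FA.SerreLarge

/-- **The square root of an index two subgroup.** -/
theorem exists_sqrt_of_index_two {H : Subgroup GQ} (hH : H.index = 2)
    (hopen : IsOpen (H : Set GQ)) :
    ∃ (d : ℤ) (s : Qb), Squarefree d ∧ d ≠ 1 ∧ s ^ 2 = (d : Qb) ∧ ∀ τ ∈ H, τ s = s := by
  obtain ⟨σ, hσ⟩ := SetLike.exists_not_mem_of_ne_top H (fun h => by simp [h] at hH) rfl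
  obtain ⟨y, q, hy0, hq0, hq, hHy, hout⟩ := FA.IndexTwo.exists_sq_eq_rat hH hopen
  have hσy : σ y = -y := hout σ hσ
  obtain ⟨d, t, hd, ht, hqd⟩ := FA.Twists.exists_squarefree_mul_sq hq0
  have ht' : (t : Qb) ≠ 0 := Rat.cast_ne_zero.mpr ht
  have hs : (y / (t : Qb)) ^ 2 = (d : Qb) := by
    rw [div_pow, hq, hqd, Rat.cast_mul, Rat.cast_pow, Rat.cast_intCast,
      mul_div_cancel_left₀ _ (pow_ne_zero 2 ht')]
  refine ⟨d, y / t, hd, fun hd1 => ?_, hs, fun τ hτ => by rw [map_div₀, hHy τ hτ, map_ratCast]⟩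
  rw [hd1, Int.cast_one, sq_eq_one_iff, div_eq_iff ht', div_eq_iff ht', one_mul, neg_one_mul] at hs
  refine FA.Two.neg_ne_self hy0 (hσy.symm.trans ?_)
  rcases hs with e | e <;> rw [e] <;> simp [map_ratCast]

/-- **Frobenius at an inert prime moves the square root.** -/
theorem frobenius_apply_ne {l : ℕ} (hl : l.Prime) {d : ℤ} (hns : ¬ IsSquare (d : ZMod l))
    {A : ValuationSubring Qb} (hA : A.LiesOverPrime l) {σ : GQ} (hσ : A.IsFrobeniusAt σ l)
    {s : Qb} (hs : s ^ 2 = (d : Qb)) : σ s ≠ s := by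
  haveI := Fact.mk hl
  have hl2 : l ≠ 2 := by
    rintro rfl
    exact hns (FiniteField.isSquare_of_char_two (ZMod.ringChar_zmod_n 2) _)
  have hd0 : (d : ZMod l) ≠ 0 := fun h => hns (h ▸ IsSquare.zero)
  haveI := res_charP hl hA
  have hint : A.valuation (d : Qb) ≤ 1 :=
    (A.valuation_le_one_iff _).mpr (intCast_mem A d)
  have hv : A.valuation s ≤ 1 := by
    rw [← hs, map_pow] at hint
    exact (pow_le_one_iff_of_nonneg zero_le two_ne_zero).mp hint
  have hrs : res A s ^ 2 = (d : Res A) := by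
    rw [← res_pow hv, hs, res_eq ((A.valuation_le_one_iff _).mpr (intCast_mem A d)),
      ← map_intCast (IsLocalRing.residue A)]
    rfl
  have hneg := (FA.CM.EndoSquare.frobenius_sqrt hl2 hd0 hrs).2 hns
  intro heq
  have h : res A (σ s) = res A s ^ l := by
    have := hσ.smul_residue_eq (IsLocalRing.residue A ⟨s, mem_of_map_le hv⟩)
    rw [← IsLocalRing.ResidueField.residue_smul] at this
    rw [res_eq (x := s) hv, res_eq (x := σ s) (by rw [heq]; exact hv)]
    exact this
  rw [heq, ← frobenius_def, hneg] at h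
  have h0 : res A s = 0 := by
    have h2 : (2 : Res A) ≠ 0 := fun e => hl2 ((Nat.prime_dvd_prime_iff_eq hl Nat.prime_two).mp
      ((CharP.cast_eq_zero_iff (Res A) l 2).mp (by exact_mod_cast e)))
    refine (mul_eq_zero.mp ?_).resolve_left h2
    linear_combination h
  rw [h0, zero_pow two_ne_zero, eq_comm, CharP.intCast_eq_zero_iff (Res A) l] at hrs
  exact hd0 ((ZMod.intCast_zmod_eq_zero_iff_dvd d l).mpr hrs)

end FA.SerreLarge

end
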