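import Fermat.Agent.SerreLarge.Field

/-!
# A prime dividing a squarefree radicand ramifies
-/

set_option autoImplicit false

noncomputable section

open FA.LocalDef

local notation "Qb" => AlgebraicClosure ℚ

namespace FA.SerreLarge

/-- **Ramification**: if `q` divides the squarefree integer `d`, inertia at every place over `q`
moves a square root of `d`. -/
theorem exists_inertia_moves_sqrt {q : ℕ} (hq : q.Prime) {d : ℤ} (hd : Squarefree d)
    (hqd : (q : ℤ) ∣ d) {s : Qb} (hs : s ^ 2 = (d : Qb)) {A : ValuationSubring Qb}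
    (hA : A.LiesOverPrime q) : ∃ σ ∈ A.inertiaSubgroupIn ℚ, σ s ≠ s := by
  by_contra hcon
  push Not at hcon
  obtain ⟨m, rfl⟩ := hqd
  have hm : ¬ (q : ℤ) ∣ m := fun h =>
    hq.ne_one (Int.natCast_inj.mp ((Int.isUnit_iff.mp (hd (q : ℤ) (mul_dvd_mul_left _ h))).resolve_right
      (by omega)))
  have hlt := valuation_p_lt_one hA
  have hv : A.valuation ((((q : ℤ) * m : ℤ)) : Qb) = A.valuation (q : Qb) := by
    rw [Int.cast_mul, map_mul, Int.cast_natCast, FA.Local.natCast_eq_one_of_not_dvd hq hlt hm,
      mul_one]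
  have hs0 : s ≠ 0 := fun h => by
    rw [h, zero_pow two_ne_zero] at hs
    rw [← hs, map_zero] at hv
    exact (valuation_p_pos hq).ne hv
  obtain ⟨k, hk⟩ := exists_zpow_of_mem_kur hq hA (mem_kur.mpr hcon) hs0
  have h := congrArg A.valuation hs
  rw [map_pow, hk, hv, ← zpow_natCast, ← zpow_mul] at h
  have := FA.Two.zpow_val_injective hq hA (j := 1) (by rw [h, zpow_one])
  omega

end FA.SerreLarge

end
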