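import Fermat.Agent.SerreLarge.Klein
import Fermat.Agent.SerreLarge.InertiaAtP
import Fermat.Agent.SerreLarge.Field
import Fermat.Agent.SerreLarge.Ramified
import Fermat.Agent.CM.ClassOne.QuadChar
import Fermat.Agent.Two.CharFinite
import Fermat.Agent.Root.SummaryTraces

/-!
# Serre's dichotomy for the images modulo large primes

If for infinitely many primes `p` the irreducible `p`-torsion has no transvection, the image is then
in the normaliser of a Cartan subgroup without being inside it, and the quadratic character so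
obtained is unramified outside the bad primes. One character serves infinitely many `p`, so the
trace of Frobenius vanishes at every odd good prime inert in its field.
-/

set_option autoImplicit false
set_option linter.style.haveILetI false

noncomputable section

open WeierstrassCurve Matrix FA.EC FA.Frob FA.RT

local notation "Qb" => AlgebraicClosure ℚ
local notation "GQ" => AlgebraicClosure ℚ ≃ₐ[ℚ] AlgebraicClosure ℚ
local notation "M2" k => Matrix (Fin 2) (Fin 2) k

namespace FA.SerreLarge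

variable {W : WeierstrassCurve ℤ} [(ratCurve W).IsElliptic]

/-- A group in the centraliser of a matrix which is not scalar, with an element of determinant
`-1` and square one, has a stable line. -/
theorem exists_line_of_commute {k : Type*} [Field k] (h2 : (2 : k) ≠ 0) {G : Type*} [Group G]
    (r : G →* M2 k) {M : M2 k} (hM : ∀ a : k, M ≠ a • 1) (hall : ∀ g, Commute (r g) M)
    {c : G} (hc : c * c = 1) (hdet : (r c).det = -1) :
    ∃ v : Fin 2 → k, v ≠ 0 ∧ ∀ g, ∃ a : k, r g *ᵥ v = a • v := by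
  have hMM : r c * r c = 1 := by rw [← map_mul, hc, map_one]
  have ht : (r c).trace = 0 := by
    have h := FA.LocalDef.mul_self_two (r c)
    rw [hMM, hdet, neg_one_smul, sub_neg_eq_add] at h
    have h0 : (r c).trace • r c = 0 := add_right_cancel (h.symm.trans (zero_add _).symm)
    refine (smul_eq_zero.mp h0).resolve_right fun e => ?_
    rw [e, Matrix.det_zero] at hdet
    exact one_ne_zero (neg_eq_zero.mp hdet.symm)
  obtain ⟨v, hv, hcv⟩ : ∃ v, v ≠ 0 ∧ (r c - 1) *ᵥ v = 0 := by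
    refine Matrix.exists_mulVec_eq_zero_iff.mpr ?_
    rw [FA.Traces.det_sub_one, hdet, ht]
    ring
  rw [sub_mulVec, one_mulVec, sub_eq_zero] at hcv
  refine ⟨v, hv, fun g => ?_⟩
  have hfix : r c *ᵥ (r g *ᵥ v) = r g *ᵥ v := by
    rw [mulVec_mulVec, (commute_of_commute hM (hall c) (hall g)).eq, ← mulVec_mulVec, hcv]
  -- the fixed space of `r c` is the line of `v`
  by_contra hcon
  push Not at hcon
  set w := r g *ᵥ v
  have hli : LinearIndependent k ![v, w] :=
    LinearIndependent.pair_iff' hv |>.mpr fun a e => hcon a e.symm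
  have hone : r c = 1 := by
    have hb := LinearMap.ext_on_range (v := ![v, w]) (f := Matrix.toLin' (r c))
      (g := LinearMap.id) ?_ ?_
    · exact Matrix.toLin'.injective (hb.trans Matrix.toLin'_one.symm)
    · exact hli.span_eq_top_of_card_eq_finrank (by simp)
    · intro i
      fin_cases i
      exacts [hcv, hfix]
  rw [hone, det_one, eq_neg_iff_add_eq_zero, one_add_one_eq_two] at hdet
  exact h2 hdet

variable (W) in
/-- The data at a prime without transvection: a quadratic character unramified outside the bad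
primes, outside whose kernel the trace is zero. -/
theorem exists_character {p : ℕ} [hp : Fact p.Prime] (h11 : 11 ≤ p) (hgood : W.IsGoodPrimeFor p)
    (hirr : W.ModRepIsIrreducible p)
    (hunip : ∀ g, (curveRep p W g - 1) * (curveRep p W g - 1) = 0 → curveRep p W g = 1) :
    ∃ f : (⊤ : Subgroup GQ) → ZMod 2, FA.Two.IsUnrChar ⊤ W.Δ.natAbs.primeFactors f ∧
      (∃ g, f g ≠ 0) ∧ ∀ g : (⊤ : Subgroup GQ), f g ≠ 0 → (curveRep p W g.1).trace = 0 := by
  classical
  have hΔ : W.Δ ≠ 0 := fun h => (ratCurve W).isUnit_Δ.ne_zero (by simp [ratCurve, h])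
  obtain ⟨A, hA⟩ := FA.Deform.exists_liesOverPrime hp.out
  obtain ⟨σ, hσ, hne, hsq⟩ | ⟨hcomm, h₀, hh₀, hh⟩ := inertia_type h11 hgood hA
  · exact absurd (hunip σ hsq) hne
  set r := curveRep p W
  have hM : ∀ c : ZMod p, r h₀ ≠ c • 1 := fun c => by
    simpa using hh 1 one_pos (by norm_num) c
  let f : (⊤ : Subgroup GQ) → ZMod 2 := fun g => if Commute (r g.1) (r h₀) then 0 else 1
  have hf0 : ∀ g, f g = 0 ↔ Commute (r g.1) (r h₀) := fun g => by
    simp only [f]
    split <;> simp_all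
  have hinv : ∀ g : GQ, Commute (r g) (r h₀) → Commute (r g⁻¹) (r h₀) := fun g hg => by
    show r g⁻¹ * r h₀ = r h₀ * r g⁻¹
    have e : r g⁻¹ * r g = 1 := by rw [← map_mul, inv_mul_cancel, map_one]
    have e' : r g * r g⁻¹ = 1 := by rw [← map_mul, mul_inv_cancel, map_one]
    calc r g⁻¹ * r h₀ = r g⁻¹ * (r h₀ * r g) * r g⁻¹ := by simp only [mul_assoc, e', mul_one]
      _ = r g⁻¹ * (r g * r h₀) * r g⁻¹ := by rw [hg.eq]
      _ = r h₀ * r g⁻¹ := by rw [← mul_assoc, e, one_mul]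
  have hhom : ∀ g h, f (g * h) = f g + f h := fun g h => by
    by_cases hg : Commute (r g.1) (r h₀) <;> by_cases hh' : Commute (r h.1) (r h₀)
    · simp [f, hg, hh', map_mul, hg.mul_left hh']
    · have : ¬ Commute (r g.1 * r h.1) (r h₀) := fun e => hh' (by
        simpa [← mul_assoc, ← map_mul] using (hinv _ hg).mul_left e)
      simp [f, hg, hh', map_mul, this]
    · have : ¬ Commute (r g.1 * r h.1) (r h₀) := fun e => hg (by
        simpa [mul_assoc, ← map_mul] using e.mul_left (hinv _ hh'))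
      simp [f, hg, hh', map_mul, this]
    · have := (trace_eq_zero_of_not_commute r hunip hh hg).2 _ hh'
      simp only [f, hg, hh', if_false, Subgroup.coe_mul, this, if_true]
      rfl
  refine ⟨f, ⟨hhom, ⟨r.ker, isOpen_ker_curveRep W, fun g s hs _ => ?_⟩, ?_⟩, ?_, fun g hg => ?_⟩
  · simp [f, map_mul, MonoidHom.mem_ker.mp hs]
  · intro l hl hlS B hB σ hσ _
    rw [hf0]
    rcases eq_or_ne l p with rfl | hlp
    · obtain ⟨τ, hτ⟩ := FA.TW.exists_smul_eq_of_liesOver hl hB hA
      have hmem := FA.TW.conj_mem_inertia hl hB hσ τ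
      rw [hτ] at hmem
      have h0 := (hf0 ⟨_, trivial⟩).mpr (hcomm _ hmem _ hh₀)
      have φm : ∀ a b : GQ, f ⟨a * b, trivial⟩ = f ⟨a, trivial⟩ + f ⟨b, trivial⟩ :=
        fun a b => hhom ⟨a, trivial⟩ ⟨b, trivial⟩
      have h1 : f ⟨1, trivial⟩ = 0 := (hf0 _).mpr (by simp [r])
      have e1 : f ⟨τ * τ⁻¹, trivial⟩ = 0 := by simp only [mul_inv_cancel]; exact h1
      rw [φm] at e1 h0
      rw [φm] at h0
      refine (hf0 ⟨σ, trivial⟩).mp ?_
      linear_combination h0 - e1
    · have hlgood : W.IsGoodPrimeFor l := fun hd => hlS (Nat.mem_primeFactors.mpr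
        ⟨hl, Int.natCast_dvd.mp hd, Int.natAbs_ne_zero.mpr hΔ⟩)
      rw [show r σ = 1 from curveRep_unramified W hl hlp hlgood hB hσ]
      exact Commute.one_left _
  · by_contra hcon
    push Not at hcon
    have h2 : (2 : ZMod p) ≠ 0 := fun h => by
      have := Nat.le_of_dvd two_pos ((ZMod.natCast_eq_zero_iff 2 p).mp (by exact_mod_cast h))
      omega
    obtain ⟨v, hv, hst⟩ := exists_line_of_commute h2 r hM
      (fun g => (hf0 ⟨g, trivial⟩).mp (hcon _)) complexConjugation_mul_self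
      (det_complexConjugation W (by omega))
    obtain ⟨g, hg⟩ := FA.Ribet.exists_moves_line hirr hv
    exact hg _ (hst g).choose_spec
  · exact (trace_eq_zero_of_not_commute r hunip hh fun h => hg ((hf0 g).mpr h)).1

omit [(ratCurve W).IsElliptic] in
variable (W) in
/-- The quadratic field of a character unramified outside the bad primes: its radicand is supported
at them, and the character is nontrivial at Frobenius elements of inert primes. -/
theorem exists_field_of_character {f : (⊤ : Subgroup GQ) → ZMod 2}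
    (hf : FA.Two.IsUnrChar ⊤ W.Δ.natAbs.primeFactors f) (hf0 : ∃ g, f g ≠ 0) :
    ∃ d : ℤ, Squarefree d ∧ d ≠ 1 ∧ (∀ q : ℕ, q.Prime → (q : ℤ) ∣ d → (q : ℤ) ∣ W.Δ) ∧
      (d % 4 = 3 → (2 : ℤ) ∣ W.Δ) ∧ ∀ l : ℕ, l.Prime → ¬ IsSquare (d : ZMod l) →
      ∀ B : ValuationSubring Qb, B.LiesOverPrime l → ∀ σ : GQ, B.IsFrobeniusAt σ l →
        f ⟨σ, trivial⟩ ≠ 0 := by
  obtain ⟨⟨g₀, hg₀'⟩, hg₀⟩ := hf0
  -- the kernel
  have φm : ∀ a b : GQ, f ⟨a * b, trivial⟩ = f ⟨a, trivial⟩ + f ⟨b, trivial⟩ :=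
    fun a b => hf.hom ⟨a, trivial⟩ ⟨b, trivial⟩
  let H : Subgroup GQ :=
    { carrier := {g | f ⟨g, trivial⟩ = 0}
      one_mem' := by
        have h := φm 1 1
        rw [mul_one] at h
        exact left_eq_add.mp h
      mul_mem' := fun {a b} ha hb => by
        show f ⟨a * b, trivial⟩ = 0
        rw [φm, show f ⟨a, trivial⟩ = 0 from ha, show f ⟨b, trivial⟩ = 0 from hb, add_zero]
      inv_mem' := fun {a} ha => by
        have h := φm a a⁻¹
        have h1 := φm 1 1
        rw [show f ⟨a, trivial⟩ = 0 from ha, zero_add] at h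
        rw [mul_one] at h1
        show f ⟨a⁻¹, trivial⟩ = 0
        rw [← h]
        simp only [mul_inv_cancel]
        exact left_eq_add.mp h1 }
  have hH : ∀ g, g ∈ H ↔ f ⟨g, trivial⟩ = 0 := fun g => Iff.rfl
  have hidx : H.index = 2 := Subgroup.index_eq_two_iff.mpr ⟨g₀, fun b => by
    have key : ∀ x y : ZMod 2, y ≠ 0 → Xor (x + y = 0) (x = 0) := by decide
    have := key (f ⟨b, trivial⟩) (f ⟨g₀, trivial⟩) hg₀
    rwa [← hf.hom] at this⟩
  have hopen : IsOpen (H : Set GQ) := by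
    obtain ⟨N, hN, hNf⟩ := hf.lc
    refine Subgroup.isOpen_mono (H₁ := N) (fun s hs => ?_) hN
    have h := hNf ⟨1, trivial⟩ s hs trivial
    rw [hH, ← show f ⟨1, trivial⟩ = 0 from H.one_mem, ← h]
    exact congrArg f (Subtype.ext (one_mul s).symm)
  obtain ⟨d, s, hd, hd1, hs, hfix⟩ := exists_sqrt_of_index_two hidx hopen
  have hram : ∀ q : ℕ, q.Prime → ¬ (q : ℤ) ∣ W.Δ → ∀ A : ValuationSubring Qb, A.LiesOverPrime q →
      ∀ τ ∈ A.inertiaSubgroupIn ℚ, τ s = s := fun q hq hgood A hA τ hτ =>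
    hfix τ (hf.unr q hq (fun h => hgood (Int.natCast_dvd.mpr (Nat.mem_primeFactors.mp h).2.1))
      A hA τ hτ trivial)
  refine ⟨d, hd, hd1, fun q hq hqd => ?_, fun h4 => ?_, fun l hl hns B hB σ hσ h =>
    frobenius_apply_ne hl hns hB hσ hs (hfix σ ((hH σ).mpr h))⟩
  · by_contra hgood
    obtain ⟨A, hA⟩ := FA.Deform.exists_liesOverPrime hq
    obtain ⟨τ, hτ, hne⟩ := exists_inertia_moves_sqrt hq hd hqd hs hA
    exact hne (hram q hq hgood A hA τ hτ)
  · by_contra hgood
    obtain ⟨A, hA⟩ := FA.Deform.exists_liesOverPrime Nat.prime_two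
    obtain ⟨τ, hτ, hne⟩ := FA.CM.ClassOne.exists_inertia_moves h4 hs hA
    exact hne (hram 2 Nat.prime_two hgood A hA τ hτ)

variable (W) in
/-- **The dichotomy for an integral equation**, with the field unramified outside the bad primes. -/
theorem surjective_or_dihedral_bad
    (hirr : ∃ M : ℕ, ∀ p : ℕ, p.Prime → M < p → W.ModRepIsIrreducible p) :
    (∃ M : ℕ, ∀ p : ℕ, ∀ [Fact p.Prime], M < p → ∀ X : M2 (ZMod p), X.det ≠ 0 →
      ∃ σ : GQ, curveRep p W σ = X) ∨
    ∃ d : ℤ, Squarefree d ∧ d ≠ 1 ∧ (∀ q : ℕ, q.Prime → (q : ℤ) ∣ d → (q : ℤ) ∣ W.Δ) ∧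
      (d % 4 = 3 → (2 : ℤ) ∣ W.Δ) ∧ ∀ l : ℕ, l.Prime → ¬ (l : ℤ) ∣ W.Δ →
      ¬ IsSquare (d : ZMod l) → W.apOfModel l = 0 := by
  classical
  have hΔ : W.Δ ≠ 0 := fun h => (ratCurve W).isUnit_Δ.ne_zero (by simp [ratCurve, h])
  obtain ⟨M₀, hM₀⟩ := hirr
  set S := {p : ℕ | ∃ _ : Fact p.Prime, 11 ≤ p ∧ W.IsGoodPrimeFor p ∧ W.ModRepIsIrreducible p ∧
    ∀ g, (curveRep p W g - 1) * (curveRep p W g - 1) = 0 → curveRep p W g = 1}
  by_cases hfin : S.Finite
  · left
    obtain ⟨B, hB⟩ := hfin.bddAbove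
    refine ⟨M₀ + B + W.Δ.natAbs + 11, fun p hp hlt X hX => ?_⟩
    have hgood : W.IsGoodPrimeFor p := fun hd => by
      have := Nat.le_of_dvd (Int.natAbs_pos.mpr hΔ) (Int.natCast_dvd.mp hd)
      omega
    have hi := hM₀ p hp.out (by omega)
    obtain ⟨σ, hsq, hne⟩ : ∃ σ, (curveRep p W σ - 1) * (curveRep p W σ - 1) = 0 ∧
        curveRep p W σ ≠ 1 := by
      by_contra hcon
      push Not at hcon
      have := hB (show p ∈ S from ⟨hp, by omega, hgood, hi, hcon⟩)
      omega
    refine FA.Ribet.exists_eq_of_transvection _ (fun v hv => FA.Ribet.exists_moves_line hi hv)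
      (fun a ha => ?_) hne hsq hX
    obtain ⟨g, hg⟩ := FA.TW.exists_cyclotomic_action hp.out (a := a.val) fun hd' => ha <| by
      rw [← ZMod.natCast_zmod_val a, (ZMod.natCast_eq_zero_iff _ _).mpr hd']
    exact ⟨g, by rw [det_curveRep W g a.val hg, ZMod.natCast_zmod_val]⟩
  right
  have hC := FA.Two.finite_unrChar (H := ⊤) isOpen_univ W.Δ.natAbs.primeFactors
    fun _ _ _ _ _ => le_top
  have hex : ∀ p : S, ∃ f : {f | FA.Two.IsUnrChar ⊤ W.Δ.natAbs.primeFactors f},
      (∃ g, f.1 g ≠ 0) ∧ ∀ g : (⊤ : Subgroup GQ), f.1 g ≠ 0 →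
        haveI := Fact.mk p.2.choose.out
        (curveRep p.1 W g.1).trace = 0 := fun p => by
    haveI := p.2.choose
    obtain ⟨h11, hg, hi, hu⟩ := p.2.choose_spec
    obtain ⟨f, hf, h1, h2⟩ := exists_character W h11 hg hi hu
    exact ⟨⟨f, hf⟩, h1, h2⟩
  choose F hF hFtr using hex
  haveI := hC.to_subtype
  haveI : Infinite S := Set.infinite_coe_iff.mpr hfin
  obtain ⟨⟨f, hf⟩, hinf⟩ := Finite.exists_infinite_fiber F
  obtain ⟨p₀, hp₀⟩ := (inferInstance : Nonempty (F ⁻¹' {⟨f, hf⟩}))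
  obtain ⟨⟨g₀, hg₀'⟩, hg₀⟩ := hF p₀
  rw [Set.mem_preimage, Set.mem_singleton_iff] at hp₀
  rw [hp₀] at hg₀
  obtain ⟨d, hd, hd1, hsupp, h4, hfrob⟩ := exists_field_of_character W hf ⟨⟨g₀, hg₀'⟩, hg₀⟩
  refine ⟨d, hd, hd1, hsupp, h4, fun l hl hgood hns => ?_⟩
  by_contra hne
  obtain ⟨B, hB⟩ := FA.Deform.exists_liesOverPrime hl
  obtain ⟨σ, hσ⟩ := FA.Deform.exists_isFrobeniusAt hl hB
  obtain ⟨⟨p, hpmem⟩, hlt⟩ : ∃ p : (F ⁻¹' {⟨f, hf⟩} : Set S),
      (W.apOfModel l).natAbs + l < p.1.1 := by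
    by_contra hcon
    push Not at hcon
    refine hinf.not_finite ?_
    exact Finite.of_injective (fun p => (⟨p.1.1, Nat.lt_succ_of_le (hcon p)⟩ :
        Fin ((W.apOfModel l).natAbs + l + 1)))
      fun a b h => Subtype.ext (Subtype.ext (congrArg Fin.val h))
  haveI := p.2.choose
  have htr := hFtr p ⟨σ, trivial⟩ (by rw [hpmem]; exact hfrob l hl hns B hB σ hσ)
  rw [trace_curveRep W hl hgood (by simp only at hlt; omega) hB hσ,
    ZMod.intCast_zmod_eq_zero_iff_dvd] at htr
  have := Nat.le_of_dvd (Int.natAbs_pos.mpr hne) (Int.natCast_dvd.mp htr)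
  simp only at hlt
  omega

end FA.SerreLarge

end
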